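import Mathlib
import Fermat.Agent.LT.T7.B981.PairDatSpec

/-!
# Row LT, tower T7, leaf D.5 `B981.PushTelC981` (cut of helper981): the abstract core
# (helper488, OFF-MAIN)

Mathlib + the definition of `B981.convR981` only.

* `gen488`: the induction over the places downstairs, for an arbitrary predicate `Z` ("the
  family sums to zero") on the families of summands: a relation among pure tensors upstairs
  gives the relation among the pushed pure tensors downstairs, if it does so for one place.
* `flp488`: the step at a finite place (sums over the fibre; `Z` = the sum over `j : ℤ` of the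
  sums over `i` is `0`).
* `ilp488`: the step at an infinite place (iterated convolutions; `Z` = a finite sum is `0`).
-/

set_option autoImplicit false
set_option linter.unusedSectionVars false
set_option linter.unusedVariables false

open MeasureTheory

noncomputable section

namespace Fermat.Agent.LT.T7.H488.PT

open Fermat.Agent.LT.T7

/-! ## 1. The generic induction over the places downstairs -/

theorem gen488 {κ Ω V E E' : Type} [DecidableEq V] [Inhabited E]
    (Z : (κ → ℂ) → Prop) (below : Ω → V) (PΩ : Finset Ω) (PV : Finset V)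
    (u : κ → Ω → E → ℂ) (U : κ → V → E' → ℂ)
    (hbelow : ∀ w ∈ PΩ, below w ∈ PV)
    (H : ∀ v ∈ PV, ∀ d : κ → ℂ,
      (∀ x : Ω → E, Z fun k => d k * ∏ w ∈ PΩ.filter (fun w => below w = v), u k w (x w)) →
      ∀ Y : E', Z fun k => d k * U k v Y)
    (r : κ → ℂ)
    (h0 : ∀ x : Ω → E, Z fun k => r k * ∏ w ∈ PΩ, u k w (x w)) :
    ∀ X : V → E', Z fun k => r k * ∏ v ∈ PV, U k v (X v) := by
  classical
  have key : ∀ S : Finset V, S ⊆ PV → ∀ (X : V → E') (x : Ω → E),
      Z fun k => r k * (∏ v ∈ S, U k v (X v)) *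
        ∏ w ∈ PΩ.filter (fun w => below w ∉ S), u k w (x w) := by
    intro S
    induction S using Finset.induction_on with
    | empty =>
      intro _ X x
      have := h0 x
      simpa using this
    | insert v₀ S hv₀ ih =>
      intro hS X x
      have hS' : S ⊆ PV := fun a ha => hS (Finset.mem_insert_of_mem ha)
      have hv₀P : v₀ ∈ PV := hS (Finset.mem_insert_self _ _)
      have step := H v₀ hv₀P
        (fun k => r k * (∏ v ∈ S, U k v (X v)) *
          ∏ w ∈ PΩ.filter (fun w => below w ∉ insert v₀ S), u k w (x w)) ?_ (X v₀)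
      · have e : (fun k => r k * (∏ v ∈ insert v₀ S, U k v (X v)) *
            ∏ w ∈ PΩ.filter (fun w => below w ∉ insert v₀ S), u k w (x w))
            = fun k => (r k * (∏ v ∈ S, U k v (X v)) *
              ∏ w ∈ PΩ.filter (fun w => below w ∉ insert v₀ S), u k w (x w)) *
                U k v₀ (X v₀) := by
          funext k
          rw [Finset.prod_insert hv₀]
          ring
        rw [e]; exact step
      · intro x'
        have := ih hS' X (fun w => if below w = v₀ then x' w else x w)
        have e : (fun k => r k * (∏ v ∈ S, U k v (X v)) *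
            ∏ w ∈ PΩ.filter (fun w => below w ∉ S),
              u k w ((fun w => if below w = v₀ then x' w else x w) w))
            = fun k => (r k * (∏ v ∈ S, U k v (X v)) *
              ∏ w ∈ PΩ.filter (fun w => below w ∉ insert v₀ S), u k w (x w)) *
              ∏ w ∈ PΩ.filter (fun w => below w = v₀), u k w (x' w) := by
          funext k
          have h1 : ∏ w ∈ PΩ.filter (fun w => below w ∉ S),
              u k w (if below w = v₀ then x' w else x w)
              = (∏ w ∈ PΩ.filter (fun w => below w = v₀), u k w (x' w)) *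
                ∏ w ∈ PΩ.filter (fun w => below w ∉ insert v₀ S), u k w (x w) := by
            rw [← Finset.prod_filter_mul_prod_filter_not (PΩ.filter (fun w => below w ∉ S))
              (fun w => below w = v₀)]
            congr 1
            · apply Finset.prod_congr
              · ext w
                simp only [Finset.mem_filter]
                constructor
                · rintro ⟨⟨hw, _⟩, h2⟩; exact ⟨hw, h2⟩
                · rintro ⟨hw, h2⟩; exact ⟨⟨hw, by rw [h2]; exact hv₀⟩, h2⟩
              · intro w hw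
                rw [if_pos (Finset.mem_filter.1 hw).2]
            · apply Finset.prod_congr
              · ext w
                simp only [Finset.mem_filter, Finset.mem_insert, not_or]
                constructor
                · rintro ⟨⟨hw, h1⟩, h2⟩; exact ⟨hw, h2, h1⟩
                · rintro ⟨hw, h2, h1⟩; exact ⟨⟨hw, h1⟩, h2⟩
              · intro w hw
                have h3 := (Finset.mem_filter.1 hw).2
                rw [if_neg (fun h => h3 (by rw [h]; exact Finset.mem_insert_self _ _))]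
          show r k * (∏ v ∈ S, U k v (X v)) *
            ∏ w ∈ PΩ.filter (fun w => below w ∉ S),
              u k w (if below w = v₀ then x' w else x w) = _
          rw [h1]
          ring
        rw [e] at this
        exact this
  intro X
  have h := key PV (Finset.Subset.refl _) X (fun _ => default)
  have e0 : PΩ.filter (fun w => below w ∉ PV) = ∅ := by
    apply Finset.filter_eq_empty_iff.2
    intro w hw
    simpa using hbelow w hw
  have e : (fun k => r k * (∏ v ∈ PV, U k v (X v)) *
        ∏ w ∈ PΩ.filter (fun w => below w ∉ PV), u k w ((fun _ => default : Ω → E) w))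
      = fun k => r k * ∏ v ∈ PV, U k v (X v) := by
    funext k
    rw [e0, Finset.prod_empty, mul_one]
  rw [e] at h
  exact h

/-! ## 2. The push-forward over a finite fibre -/

/-- The push-forward of the coefficients over the finite set `W` with the weights `f`
(`B981.pushFin981` is the case `W = fib981 P' v`, `f = resDeg981 v`). -/
def push488 {Ω : Type} (W : Finset Ω) (f : Ω → ℕ) (A' : Ω → ℤ × ℤ → ℂ) (M : ℤ × ℤ) : ℂ :=
  ∑ᶠ mm : W → ℤ × ℤ, if ∑ w, (f w.1 : ℤ) • mm w = M then ∏ w, A' w.1 (mm w) else 0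

theorem push_shift488 {Ω : Type} (W : Finset Ω) (f : Ω → ℕ) (A' : Ω → ℤ × ℤ → ℂ)
    (s : Ω → ℤ × ℤ) (M : ℤ × ℤ) :
    push488 W f (fun w y => A' w (y + s w)) M
      = push488 W f A' (M + ∑ w ∈ W, (f w : ℤ) • s w) := by
  unfold push488
  rw [← finsum_comp_equiv (Equiv.addRight (fun w : W => s w.1))
    (f := fun mm : W → ℤ × ℤ =>
      if ∑ w, (f w.1 : ℤ) • mm w = M + ∑ w ∈ W, (f w : ℤ) • s w
        then ∏ w, A' w.1 (mm w) else 0)]
  refine finsum_congr fun mm => ?_
  have e1 : ∑ w : W, (f w.1 : ℤ) • ((Equiv.addRight (fun w : W => s w.1)) mm) w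
      = ∑ w : W, (f w.1 : ℤ) • mm w + ∑ w ∈ W, (f w : ℤ) • s w := by
    rw [← Finset.sum_coe_sort W (fun w => (f w : ℤ) • s w), ← Finset.sum_add_distrib]
    refine Finset.sum_congr rfl fun w _ => ?_
    show (f w.1 : ℤ) • (mm w + s w.1) = _
    rw [smul_add]
  rw [e1]
  by_cases h : ∑ w : W, (f w.1 : ℤ) • mm w = M
  · rw [if_pos h, if_pos (by rw [h])]
    rfl
  · rw [if_neg h, if_neg (fun h' => h (add_right_cancel h'))]

/-- The support of a push-forward of finitely supported coefficients is finite. -/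
theorem push_support_finite488 {Ω : Type} (W : Finset Ω) (f : Ω → ℕ) (A' : Ω → ℤ × ℤ → ℂ)
    (hA : ∀ w, (Function.support (A' w)).Finite) :
    (Function.support (push488 W f A')).Finite := by
  have hfin : (Set.pi Set.univ fun w : W => Function.support (A' w.1)).Finite :=
    Set.Finite.pi fun w => hA w.1
  refine (hfin.image fun mm : W → ℤ × ℤ => ∑ w, (f w.1 : ℤ) • mm w).subset ?_
  intro M hM
  rw [Function.mem_support] at hM
  by_contra hcon
  apply hM
  unfold push488
  refine finsum_eq_zero_of_forall_eq_zero fun mm => ?_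
  by_cases h : ∑ w, (f w.1 : ℤ) • mm w = M
  · rw [if_pos h]
    by_contra hne
    apply hcon
    refine ⟨mm, ?_, h⟩
    intro w _
    rw [Function.mem_support]
    intro h0
    exact hne (Finset.prod_eq_zero (Finset.mem_univ w) h0)
  · rw [if_neg h]

/-- **The step at a finite place.** -/
theorem flp488 {Ω ι : Type} [Fintype ι] (W : Finset Ω) (f : Ω → ℕ) (e' : Ω → ℕ) (ev : ℕ)
    (hev : (ev : ℤ) = ∑ w ∈ W, (f w : ℤ) * (e' w : ℤ)) (hpos : 0 < ev)
    (A' : ι → Ω → ℤ × ℤ → ℂ) (hA : ∀ i w, (Function.support (A' i w)).Finite)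
    (d : ℤ × ι → ℂ)
    (h : ∀ x : Ω → ℤ × ℤ, HasSum (fun j : ℤ => ∑ i, d (j, i) *
        ∏ w ∈ W, A' i w (x w + j • (((e' w : ℕ) : ℤ), (0 : ℤ)))) 0) (Y : ℤ × ℤ) :
    HasSum (fun j : ℤ => ∑ i, d (j, i) *
        push488 W f (A' i) (Y + j • (((ev : ℕ) : ℤ), (0 : ℤ)))) 0 := by
  classical
  -- the shift
  have hshift : ∀ (j : ℤ) (i : ι), push488 W f (A' i) (Y + j • (((ev : ℕ) : ℤ), (0 : ℤ)))
      = push488 W f (fun w y => A' i w (y + j • (((e' w : ℕ) : ℤ), (0 : ℤ)))) Y := by
    intro j i
    rw [push_shift488]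
    congr 2
    refine Prod.ext ?_ ?_
    · simp only [Prod.smul_fst, Prod.fst_sum, smul_eq_mul]
      rw [hev, Finset.mul_sum]
      refine Finset.sum_congr rfl fun w _ => by ring
    · simp [Prod.snd_sum]
  -- the finite set
  let N : (W → ℤ × ℤ) → ℤ × ℤ := fun mm => ∑ w, (f w.1 : ℤ) • mm w
  let Bset : Set (W → ℤ × ℤ) := {mm | N mm = Y ∧ ∃ (j : ℤ) (i : ι), ∀ w : W,
      A' i w.1 (mm w + j • (((e' w.1 : ℕ) : ℤ), (0 : ℤ))) ≠ 0}
  have hB : Bset.Finite := by
    have hSig : (⋃ i : ι, Set.pi Set.univ fun w : W => Function.support (A' i w.1)).Finite :=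
      Set.finite_iUnion fun i => Set.Finite.pi fun w => hA i w.1
    let jj : (W → ℤ × ℤ) → ℤ := fun s => (∑ w : W, (f w.1 : ℤ) * (s w).1 - Y.1) / (ev : ℤ)
    refine (hSig.image fun s : W → ℤ × ℤ => fun w : W =>
      s w - jj s • (((e' w.1 : ℕ) : ℤ), (0 : ℤ))).subset ?_
    rintro mm ⟨hN, j, i, hne⟩
    refine ⟨fun w => mm w + j • (((e' w.1 : ℕ) : ℤ), (0 : ℤ)), ?_, ?_⟩
    · rw [Set.mem_iUnion]
      exact ⟨i, fun w _ => hne w⟩
    · have hj : jj (fun w => mm w + j • (((e' w.1 : ℕ) : ℤ), (0 : ℤ))) = j := by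
        show (∑ w : W, (f w.1 : ℤ) * (mm w + j • (((e' w.1 : ℕ) : ℤ), (0 : ℤ))).1 - Y.1)
          / (ev : ℤ) = j
        have h1 : ∑ w : W, (f w.1 : ℤ) * (mm w + j • (((e' w.1 : ℕ) : ℤ), (0 : ℤ))).1
            = Y.1 + j * ev := by
          have hN1 : (N mm).1 = Y.1 := by rw [hN]
          rw [← hN1, hev, ← Finset.sum_coe_sort W, Finset.mul_sum]
          show _ = (∑ w : W, (f w.1 : ℤ) • mm w).1 + _
          rw [Prod.fst_sum, ← Finset.sum_add_distrib]
          refine Finset.sum_congr rfl fun w _ => ?_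
          simp only [Prod.fst_add, Prod.smul_fst, smul_eq_mul]
          ring
        rw [h1, add_sub_cancel_left, Int.mul_ediv_cancel _ (by exact_mod_cast hpos.ne')]
      funext w
      show (mm w + j • _) - jj _ • _ = mm w
      rw [hj, add_sub_cancel_right]
  let T : Finset (W → ℤ × ℤ) := hB.toFinset
  have hfin : ∀ (j : ℤ) (i : ι),
      push488 W f (fun w y => A' i w (y + j • (((e' w : ℕ) : ℤ), (0 : ℤ)))) Y
        = ∑ mm ∈ T, if N mm = Y
            then ∏ w : W, A' i w.1 (mm w + j • (((e' w.1 : ℕ) : ℤ), (0 : ℤ))) else 0 := by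
    intro j i
    unfold push488
    refine finsum_eq_sum_of_support_subset _ ?_
    intro mm hmm
    rw [Function.mem_support] at hmm
    rw [Finset.mem_coe, Set.Finite.mem_toFinset]
    by_cases hN : N mm = Y
    · refine ⟨hN, j, i, fun w h0 => hmm ?_⟩
      rw [if_pos hN]
      exact Finset.prod_eq_zero (Finset.mem_univ w) h0
    · exact absurd (if_neg hN) hmm
  have e : (fun j : ℤ => ∑ i, d (j, i) *
        push488 W f (A' i) (Y + j • (((ev : ℕ) : ℤ), (0 : ℤ))))
      = fun j : ℤ => ∑ mm ∈ T, ∑ i, d (j, i) *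
          (if N mm = Y
            then ∏ w : W, A' i w.1 (mm w + j • (((e' w.1 : ℕ) : ℤ), (0 : ℤ))) else 0) := by
    funext j
    rw [Finset.sum_comm]
    refine Finset.sum_congr rfl fun i _ => ?_
    rw [hshift, hfin, Finset.mul_sum]
  rw [e]
  have hsum : HasSum (fun j : ℤ => ∑ mm ∈ T, ∑ i, d (j, i) *
      (if N mm = Y
        then ∏ w : W, A' i w.1 (mm w + j • (((e' w.1 : ℕ) : ℤ), (0 : ℤ))) else 0))
      (∑ mm ∈ T, (0 : ℂ)) := by
    refine hasSum_sum fun mm _ => ?_
    by_cases hN : N mm = Y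
    · have h1 := h (fun w => if hw : w ∈ W then mm ⟨w, hw⟩ else 0)
      have e2 : (fun j : ℤ => ∑ i, d (j, i) *
          (if N mm = Y
            then ∏ w : W, A' i w.1 (mm w + j • (((e' w.1 : ℕ) : ℤ), (0 : ℤ))) else 0))
          = fun j : ℤ => ∑ i, d (j, i) *
            ∏ w ∈ W, A' i w ((fun w => if hw : w ∈ W then mm ⟨w, hw⟩ else 0) w
              + j • (((e' w : ℕ) : ℤ), (0 : ℤ))) := by
        funext j
        refine Finset.sum_congr rfl fun i _ => ?_
        rw [if_pos hN]
        congr 1
        rw [← Finset.prod_coe_sort W]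
        refine Finset.prod_congr rfl fun w _ => ?_
        show A' i w.1 (mm w + _) = A' i w.1 ((if hw : w.1 ∈ W then mm ⟨w.1, hw⟩ else 0) + _)
        rw [dif_pos w.2]
      rw [e2]
      exact h1
    · simp only [if_neg hN, mul_zero, Finset.sum_const_zero]
      exact hasSum_zero
  simpa using hsum

/-! ## 3. Iterated convolutions on `ℝ²` -/

theorem convR_zero488 (β : ℕ → ℝ × ℝ → ℂ) : B981.convR981 β 0 = β 0 := rfl

theorem convR_succ488 (β : ℕ → ℝ × ℝ → ℂ) (n : ℕ) (X : ℝ × ℝ) :
    B981.convR981 β (n + 1) X = ∫ t : ℝ × ℝ, B981.convR981 β n t * β (n + 1) (X - t) := rfl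

theorem convR_eq_convolution488 (β : ℕ → ℝ × ℝ → ℂ) (n : ℕ) :
    B981.convR981 β (n + 1)
      = MeasureTheory.convolution (B981.convR981 β n) (β (n + 1))
          (ContinuousLinearMap.mul ℝ ℂ) MeasureTheory.volume := by
  funext X
  rfl

theorem convR_reg488 (β : ℕ → ℝ × ℝ → ℂ) (hc : ∀ m, Continuous (β m))
    (hs : ∀ m, HasCompactSupport (β m)) (n : ℕ) :
    Continuous (B981.convR981 β n) ∧ HasCompactSupport (B981.convR981 β n) := by
  induction n with
  | zero => exact ⟨hc 0, hs 0⟩
  | succ n ih =>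
    rw [convR_eq_convolution488]
    exact ⟨(hs (n + 1)).continuous_convolution_right _ ih.1.locallyIntegrable (hc (n + 1)),
      ih.2.convolution _ (hs (n + 1))⟩

theorem convR_shift488 (β : ℕ → ℝ × ℝ → ℂ) (s : ℕ → ℝ × ℝ) (n : ℕ) :
    ∀ Y : ℝ × ℝ, B981.convR981 (fun m y => β m (y + s m)) n Y
      = B981.convR981 β n (Y + ∑ m ∈ Finset.range (n + 1), s m) := by
  induction n with
  | zero =>
    intro Y
    rw [convR_zero488, convR_zero488]
    simp
  | succ n ih =>
    intro Y
    rw [convR_succ488, convR_succ488]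
    simp_rw [ih]
    rw [← integral_add_right_eq_self
      (fun t => B981.convR981 β n t *
        β (n + 1) (Y + ∑ m ∈ Finset.range (n + 1 + 1), s m - t))
      (∑ m ∈ Finset.range (n + 1), s m)]
    refine integral_congr_ae (Filter.Eventually.of_forall fun t => ?_)
    show B981.convR981 β n (t + ∑ m ∈ Finset.range (n + 1), s m) * β (n + 1) (Y - t + s (n + 1))
      = B981.convR981 β n (t + ∑ m ∈ Finset.range (n + 1), s m) *
        β (n + 1) (Y + ∑ m ∈ Finset.range (n + 1 + 1), s m
          - (t + ∑ m ∈ Finset.range (n + 1), s m))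
    congr 2
    rw [Finset.sum_range_succ _ (n + 1)]
    abel

/-- **The inner induction**: a relation among the pure tensors of `n + 1` factors gives the
relation among the iterated convolutions. -/
theorem inner488 {κ : Type} (𝒦 : Finset κ) (βs : κ → ℕ → ℝ × ℝ → ℂ)
    (hc : ∀ k m, Continuous (βs k m)) (hs : ∀ k m, HasCompactSupport (βs k m)) (n : ℕ) :
    ∀ d : κ → ℂ,
      (∀ y : ℕ → ℝ × ℝ, ∑ k ∈ 𝒦, d k * ∏ m ∈ Finset.range (n + 1), βs k m (y m) = 0) →
      ∀ Y : ℝ × ℝ, ∑ k ∈ 𝒦, d k * B981.convR981 (βs k) n Y = 0 := by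
  induction n with
  | zero =>
    intro d h Y
    have := h (fun _ => Y)
    simpa [convR_zero488] using this
  | succ n ih =>
    intro d h Y
    have hint : ∀ k, Integrable
        (fun t : ℝ × ℝ => B981.convR981 (βs k) n t * βs k (n + 1) (Y - t)) := by
      intro k
      have hr := convR_reg488 (βs k) (hc k) (hs k) n
      refine Continuous.integrable_of_hasCompactSupport ?_ ?_
      · exact hr.1.mul ((hc k (n + 1)).comp (continuous_const.sub continuous_id))
      · exact hr.2.mul_right
    have e : ∑ k ∈ 𝒦, d k * B981.convR981 (βs k) (n + 1) Y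
        = ∫ t : ℝ × ℝ, ∑ k ∈ 𝒦,
            d k * (B981.convR981 (βs k) n t * βs k (n + 1) (Y - t)) := by
      rw [integral_finsetSum _ (fun k _ => (hint k).const_mul (d k))]
      refine Finset.sum_congr rfl fun k _ => ?_
      rw [integral_const_mul, convR_succ488]
    rw [e]
    have z : ∀ t : ℝ × ℝ, ∑ k ∈ 𝒦,
        d k * (B981.convR981 (βs k) n t * βs k (n + 1) (Y - t)) = 0 := by
      intro t
      have h2 := ih (fun k => d k * βs k (n + 1) (Y - t)) ?_ t
      · rw [← h2]
        exact Finset.sum_congr rfl fun k _ => by ring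
      · intro y
        have h3 := h (fun m => if m = n + 1 then Y - t else y m)
        rw [← h3]
        refine Finset.sum_congr rfl fun k _ => ?_
        rw [Finset.prod_range_succ _ (n + 1)]
        have h4 : ∏ m ∈ Finset.range (n + 1), βs k m (if m = n + 1 then Y - t else y m)
            = ∏ m ∈ Finset.range (n + 1), βs k m (y m) :=
          Finset.prod_congr rfl fun m hm => by
            rw [if_neg (by have := Finset.mem_range.1 hm; omega)]
        rw [h4, if_pos rfl]
        ring
    simp [z]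

/-- **The step at an infinite place.** -/
theorem ilp488 {κ Ω₂ : Type} [DecidableEq Ω₂] (𝒦 : Finset κ) (Wv : Finset Ω₂) (ℓ : ℕ)
    (hℓ : 0 < ℓ) (wen : ℕ → Ω₂)
    (hinj : ∀ j j' : ℕ, j < ℓ → j' < ℓ → wen j = wen j' → j = j')
    (hW : Wv = (Finset.range ℓ).image wen)
    (b : κ → Ω₂ → ℝ × ℝ → ℂ) (hc : ∀ k w, Continuous (b k w))
    (hs : ∀ k w, HasCompactSupport (b k w)) (d : κ → ℂ)
    (h : ∀ x : Ω₂ → ℝ × ℝ, ∑ k ∈ 𝒦, d k * ∏ w ∈ Wv, b k w (x w) = 0) (Y : ℝ × ℝ) :
    ∑ k ∈ 𝒦, d k * B981.convR981 (fun j => b k (wen j)) (ℓ - 1) Y = 0 := by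
  classical
  refine inner488 𝒦 (fun k j => b k (wen j)) (fun k m => hc k _) (fun k m => hs k _) (ℓ - 1) d
    ?_ Y
  intro y
  have hℓ' : ℓ - 1 + 1 = ℓ := by omega
  rw [hℓ']
  have h1 := h (fun w => if hw : ∃ j, j < ℓ ∧ wen j = w then y (Classical.choose hw) else 0)
  rw [← h1]
  refine Finset.sum_congr rfl fun k _ => ?_
  congr 1
  rw [hW, Finset.prod_image]
  · refine Finset.prod_congr rfl fun m hm => ?_
    have hm' := Finset.mem_range.1 hm
    have hex : ∃ j, j < ℓ ∧ wen j = wen m := ⟨m, hm', rfl⟩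
    show b k (wen m) (y m) = b k (wen m)
      (if hw : ∃ j, j < ℓ ∧ wen j = wen m then y (Classical.choose hw) else 0)
    rw [dif_pos hex]
    have := Classical.choose_spec hex
    rw [hinj _ _ this.1 hm' this.2]
  · intro a ha a' ha' haa
    exact hinj a a' (Finset.mem_range.1 ha) (Finset.mem_range.1 ha') haa

end Fermat.Agent.LT.T7.H488.PT

end
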