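import Mathlib
import Fermat.Agent.LT.T7.B981.PairDatSpec
import Fermat.Agent.LT.T7.H488.PushTelCore

/-!
# Row LT, tower T7, leaf D.5 `B981.PushTelC981` (fourth cut of helper981, `PairDatSpec.lean`)
# PROVED (helper488, OFF-MAIN, never land)

    pushTelC981_488 K K' : B981.PushTelC981 K K'        (VERBATIM, unconditional)

Proof.  Index set `ℤ × Fin N`, the data shifted by `j`.  `PT.gen488` (induction over the places
downstairs) with the steps `PT.flp488` (finite places: sums over the fibre, the joint support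
in `(j, mm)` is finite because `e v > 0`) and `PT.ilp488` (infinite places: iterated
convolutions, integrals of finite sums; the sum over `j` is finite after the finite places:
`P ≠ ∅`).  No residue degree is computed: the statement is formal in `resDeg981`.
-/

set_option autoImplicit false
set_option linter.unusedSectionVars false
set_option linter.unusedVariables false

open IsDedekindDomain NumberField MeasureTheory

noncomputable section

namespace Fermat.Agent.LT.T7.H488.PT

open Fermat.Agent.LT.T7 Fermat.Agent.LT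

variable {K K' : Type} [Field K] [NumberField K] [Field K'] [NumberField K'] [Algebra K K']

/-! ## 1. Bridges to the definitions of the spec -/

theorem pushFin_eq488 (P' : Finset (HeightOneSpectrum (𝓞 K')))
    (A' : HeightOneSpectrum (𝓞 K') → ℤ × ℤ → ℂ) (v : HeightOneSpectrum (𝓞 K)) (M : ℤ × ℤ) :
    B981.pushFin981 (K := K) P' A' v M
      = push488 (B981.fib981 (K := K) P' v) (B981.resDeg981 v) A' M := rfl

theorem mem_fib488 (P' : Finset (HeightOneSpectrum (𝓞 K')))
    (v : HeightOneSpectrum (𝓞 K)) (w : HeightOneSpectrum (𝓞 K')) :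
    w ∈ B981.fib981 (K := K) P' v ↔ w ∈ P' ∧ PlaceOver K K' v w := by
  classical
  exact Finset.mem_filter

theorem pureCoordM_shift488 (P : Finset (HeightOneSpectrum (𝓞 K)))
    (A : HeightOneSpectrum (𝓞 K) → ℤ × ℤ → ℂ) (β : InfinitePlace K → ℝ × ℝ → ℂ)
    (e : HeightOneSpectrum (𝓞 K) → ℕ) (α : Kˣ) (Δ : T3.M.CoordM K P) (j : ℤ) :
    T3.M.pureCoordM K P A β (Δ + j • T3.M.coordTorM K P e α)
      = (∏ v : P, A v.1 (Δ.1 v + j • (((e v.1 : ℕ) : ℤ), (0 : ℤ)))) *
        ∏ w : InfinitePlace K, β w (Δ.2 w + j • (Real.log (w (α : K)), (0 : ℝ))) := rfl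

/-! ## 2. The places -/

theorem placeOver_unique488b {v v' : HeightOneSpectrum (𝓞 K)} {w : HeightOneSpectrum (𝓞 K')}
    (h : PlaceOver K K' v w) (h' : PlaceOver K K' v' w) : v = v' := by
  refine HeightOneSpectrum.ext (Ideal.ext fun x => ?_)
  have e : ((algebraMap (𝓞 K) (𝓞 K') x : 𝓞 K') : K') = algebraMap K K' (x : K) := rfl
  rw [h x _ e, h' x _ e]

theorem exists_placeOver488b (w : HeightOneSpectrum (𝓞 K')) :
    ∃ v : HeightOneSpectrum (𝓞 K), PlaceOver K K' v w := by
  refine ⟨w.under (𝓞 K), fun x y hxy => ?_⟩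
  have hy : y = algebraMap (𝓞 K) (𝓞 K') x := RingOfIntegers.ext hxy
  subst hy
  rfl

/-- The place of `K` under a finite place of `K'`. -/
def belowF488 (w : HeightOneSpectrum (𝓞 K')) : HeightOneSpectrum (𝓞 K) :=
  Classical.choose (exists_placeOver488b (K := K) w)

theorem belowF_spec488 (w : HeightOneSpectrum (𝓞 K')) :
    PlaceOver K K' (belowF488 (K := K) w) w :=
  Classical.choose_spec (exists_placeOver488b (K := K) w)

theorem belowF_eq_iff488 (v : HeightOneSpectrum (𝓞 K)) (w : HeightOneSpectrum (𝓞 K')) :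
    belowF488 (K := K) w = v ↔ PlaceOver K K' v w :=
  ⟨fun h => h ▸ belowF_spec488 w, fun h => placeOver_unique488b (belowF_spec488 w) h⟩

open scoped Classical in
/-- The number of places of `K'` over a place of `K` (`K` totally complex, `K'/K` Galois). -/
theorem card_fibre488 [IsGalois K K'] (hK : TotCplx K) (v : InfinitePlace K) :
    (Finset.univ.filter fun u : InfinitePlace K' => u.comap (algebraMap K K') = v).card
      = Module.finrank K K' := by
  obtain ⟨u₀, hu₀'⟩ := InfinitePlace.comap_surjective (k := K) (K := K') v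
  have hu₀ : u₀.comap (algebraMap K K') = v := hu₀'
  have hset : ((Finset.univ.filter fun u : InfinitePlace K' => u.comap (algebraMap K K') = v :
      Finset (InfinitePlace K')) : Set (InfinitePlace K')) = MulAction.orbit Gal(K'/K) u₀ := by
    ext u
    rw [Finset.coe_filter, InfinitePlace.mem_orbit_iff]
    simp only [Finset.mem_univ, true_and, Set.mem_ofPred_eq]
    rw [hu₀]
    exact eq_comm
  have hunr : InfinitePlace.IsUnramified K u₀ := by
    rw [InfinitePlace.isUnramified_iff]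
    exact Or.inr (hK _)
  have hstab : MulAction.stabilizer Gal(K'/K) u₀ = ⊥ := hunr.stabilizer_eq_bot
  have hidx := MulAction.index_stabilizer Gal(K'/K) u₀
  rw [hstab, Subgroup.index_bot, IsGalois.card_aut_eq_finrank] at hidx
  rw [hidx, ← hset, Set.ncard_coe_finset]

open scoped Classical in
/-- An enumeration of the places over an infinite place. -/
theorem exists_enum488 (ℓ : ℕ) (hc : IsCycExt K K' ℓ) (hK : TotCplx K) (v : InfinitePlace K) :
    ∃ wen : ℕ → InfinitePlace K', B981.IsEnum981 ℓ v wen ∧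
      (Finset.univ.filter fun u : InfinitePlace K' => u.comap (algebraMap K K') = v)
        = (Finset.range ℓ).image wen := by
  have hgal : IsGalois K K' := hc.galois
  have hcard := card_fibre488 (K' := K') hK v
  rw [hc.degree] at hcard
  set Fib : Finset (InfinitePlace K') :=
    Finset.univ.filter fun u : InfinitePlace K' => u.comap (algebraMap K K') = v with hFib
  obtain ⟨u₀, hu₀'⟩ := InfinitePlace.comap_surjective (k := K) (K := K') v
  have hu₀ : u₀.comap (algebraMap K K') = v := hu₀'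
  let eqv : Fib ≃ Fin ℓ := Fib.equivFinOfCardEq hcard
  let wen : ℕ → InfinitePlace K' := fun j => if h : j < ℓ then (eqv.symm ⟨j, h⟩).1 else u₀
  have hmem : ∀ j, wen j ∈ Fib := by
    intro j
    by_cases h : j < ℓ
    · simp only [wen, dif_pos h]
      exact (eqv.symm ⟨j, h⟩).2
    · simp only [wen, dif_neg h]
      exact Finset.mem_filter.2 ⟨Finset.mem_univ _, hu₀⟩
  have hinj : ∀ j j' : ℕ, j < ℓ → j' < ℓ → wen j = wen j' → j = j' := by
    intro j j' hj hj' h
    simp only [wen, dif_pos hj, dif_pos hj'] at h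
    have := eqv.symm.injective (Subtype.ext h)
    exact congrArg Fin.val this
  refine ⟨wen, ⟨fun j => (Finset.mem_filter.1 (hmem j)).2, hinj⟩, ?_⟩
  symm
  apply Finset.eq_of_subset_of_card_le
  · intro u hu
    obtain ⟨a, _, rfl⟩ := Finset.mem_image.1 hu
    exact hmem a
  · rw [hcard, Finset.card_image_of_injOn, Finset.card_range]
    intro a ha b hb hab
    exact hinj a b (Finset.mem_range.1 ha) (Finset.mem_range.1 hb) hab

/-! ## 3. The leaf -/

theorem shift_reg488 (β : ℝ × ℝ → ℂ) (hβ : T3.AS.IsSymBump β) (c : ℝ × ℝ) :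
    Continuous (fun y => β (y + c)) ∧ HasCompactSupport (fun y => β (y + c)) := by
  refine ⟨hβ.1.continuous.comp (continuous_id.add continuous_const), ?_⟩
  exact hβ.2.1.comp_homeomorph (Homeomorph.addRight c)

/-- **LEAF D.5 = PUSH-TEL, PROVED.** -/
theorem pushTelC981_488 (K K' : Type) [Field K] [NumberField K] [Field K'] [NumberField K']
    [Algebra K K'] : B981.PushTelC981 K K' := by
  classical
  intro ℓ hcyc hℓ2 hK P' P e' e α' α hP hne hepos he hL cμ N A' β' A β hA' hβ' hA hβ hup Δ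
  have hℓpos : 0 < ℓ := hcyc.prime.pos
  -- the places under `P'`
  have hbelow : ∀ w ∈ P', belowF488 (K := K) w ∈ P := fun w hw =>
    (hP _).2 ⟨w, hw, belowF_spec488 w⟩
  have hfib : ∀ v : HeightOneSpectrum (𝓞 K),
      P'.filter (fun w => belowF488 (K := K) w = v) = B981.fib981 (K := K) P' v := by
    intro v
    ext w
    rw [Finset.mem_filter, mem_fib488, belowF_eq_iff488]
  -- Step B: the finite places
  have hB : ∀ (x₂ : InfinitePlace K' → ℝ × ℝ) (X : HeightOneSpectrum (𝓞 K) → ℤ × ℤ),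
      HasSum (fun j : ℤ => ∑ i : Fin N,
        (∏ w : InfinitePlace K',
          β' i w (x₂ w + j • (Real.log (w (α' : K')), (0 : ℝ)))) *
        ∏ v ∈ P, A i v (X v + j • (((e v : ℕ) : ℤ), (0 : ℤ)))) 0 := by
    intro x₂
    refine gen488 (κ := ℤ × Fin N) (fun g => HasSum (fun j : ℤ => ∑ i : Fin N, g (j, i)) 0)
      (belowF488 (K := K)) P' P
      (fun k w y => A' k.2 w (y + k.1 • (((e' w : ℕ) : ℤ), (0 : ℤ))))
      (fun k v Y => A k.2 v (Y + k.1 • (((e v : ℕ) : ℤ), (0 : ℤ)))) hbelow ?_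
      (fun k => ∏ w : InfinitePlace K',
          β' k.2 w (x₂ w + k.1 • (Real.log (w (α' : K')), (0 : ℝ)))) ?_
    · -- the step at a finite place
      intro v hv d hd Y
      have hd' : ∀ x : HeightOneSpectrum (𝓞 K') → ℤ × ℤ,
          HasSum (fun j : ℤ => ∑ i : Fin N, d (j, i) *
            ∏ w ∈ P'.filter (fun w => belowF488 (K := K) w = v),
              A' i w (x w + j • (((e' w : ℕ) : ℤ), (0 : ℤ)))) 0 := hd
      have hev : ((e v : ℕ) : ℤ) = ∑ w ∈ P'.filter (fun w => belowF488 (K := K) w = v),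
          (B981.resDeg981 v w : ℤ) * (e' w : ℤ) := by
        rw [hfib v, he v hv, Nat.cast_sum]
        exact Finset.sum_congr rfl fun w _ => Nat.cast_mul _ _
      have h1 := flp488 (P'.filter (fun w => belowF488 (K := K) w = v)) (B981.resDeg981 v) e'
        (e v) hev (hepos v hv) A' (fun i w => (hA' i w).1) d hd' Y
      have e1 : (fun j : ℤ => ∑ i : Fin N, d (j, i) *
          push488 (P'.filter (fun w => belowF488 (K := K) w = v)) (B981.resDeg981 v) (A' i)
            (Y + j • (((e v : ℕ) : ℤ), (0 : ℤ))))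
          = fun j : ℤ => ∑ i : Fin N, d (j, i) * A i v (Y + j • (((e v : ℕ) : ℤ), (0 : ℤ))) := by
        funext j
        refine Finset.sum_congr rfl fun i _ => ?_
        rw [hA i v hv, pushFin_eq488, hfib v]
      rw [e1] at h1
      exact h1
    · -- the relation upstairs
      intro x
      have h1 := hup (fun w : P' => x w.1, x₂)
      have e1 : (fun j : ℤ => ∑ i : Fin N, T3.M.pureCoordM K' P' (A' i) (β' i)
            ((fun w : P' => x w.1, x₂) + j • T3.M.coordTorM K' P' e' α'))
          = fun j : ℤ => ∑ i : Fin N,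
            (∏ w : InfinitePlace K',
              β' i w (x₂ w + j • (Real.log (w (α' : K')), (0 : ℝ)))) *
            ∏ w ∈ P', A' i w (x w + j • (((e' w : ℕ) : ℤ), (0 : ℤ))) := by
        funext j
        refine Finset.sum_congr rfl fun i _ => ?_
        rw [pureCoordM_shift488, mul_comm]
        congr 1
        exact Finset.prod_coe_sort P' (fun w => A' i w (x w + j • (((e' w : ℕ) : ℤ), (0 : ℤ))))
      rw [e1] at h1
      exact h1
  -- the point downstairs
  let X : HeightOneSpectrum (𝓞 K) → ℤ × ℤ := fun v => if h : v ∈ P then Δ.1 ⟨v, h⟩ else 0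
  obtain ⟨v₀, hv₀⟩ := hne
  -- finitely many `j`
  have hJ : {j : ℤ | ∃ i : Fin N,
      A i v₀ (X v₀ + j • (((e v₀ : ℕ) : ℤ), (0 : ℤ))) ≠ 0}.Finite := by
    have hsupp : ∀ i : Fin N, (Function.support (A i v₀)).Finite := by
      intro i
      rw [hA i v₀ hv₀]
      exact push_support_finite488 (B981.fib981 (K := K) P' v₀) (B981.resDeg981 v₀) (A' i)
        (fun w => (hA' i w).1)
    have hinj : Function.Injective
        (fun j : ℤ => X v₀ + j • (((e v₀ : ℕ) : ℤ), (0 : ℤ))) := by
      intro j j' h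
      have h1 := congrArg Prod.fst (add_left_cancel h)
      simp only [Prod.smul_fst, smul_eq_mul] at h1
      exact mul_right_cancel₀ (by exact_mod_cast (hepos v₀ hv₀).ne') h1
    have hset : {j : ℤ | ∃ i : Fin N,
        A i v₀ (X v₀ + j • (((e v₀ : ℕ) : ℤ), (0 : ℤ))) ≠ 0}
        = ⋃ i : Fin N, (fun j : ℤ => X v₀ + j • (((e v₀ : ℕ) : ℤ), (0 : ℤ))) ⁻¹'
            (Function.support (A i v₀)) := by
      ext j
      simp
    rw [hset]
    exact Set.finite_iUnion fun i => (hsupp i).preimage hinj.injOn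
  let J₁ : Finset ℤ := hJ.toFinset
  have hvan : ∀ j : ℤ, j ∉ J₁ → ∀ i : Fin N,
      ∏ v ∈ P, A i v (X v + j • (((e v : ℕ) : ℤ), (0 : ℤ))) = 0 := by
    intro j hj i
    refine Finset.prod_eq_zero hv₀ ?_
    by_contra h
    exact hj (hJ.mem_toFinset.2 ⟨i, h⟩)
  -- Step C: a finite sum
  have hC : ∀ x₂ : InfinitePlace K' → ℝ × ℝ,
      ∑ k ∈ J₁ ×ˢ (Finset.univ : Finset (Fin N)),
        (∏ v ∈ P, A k.2 v (X v + k.1 • (((e v : ℕ) : ℤ), (0 : ℤ)))) *
        ∏ w ∈ (Finset.univ : Finset (InfinitePlace K')),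
          β' k.2 w (x₂ w + k.1 • (Real.log (w (α' : K')), (0 : ℝ))) = 0 := by
    intro x₂
    have h1 := hB x₂ X
    have h2 : HasSum (fun j : ℤ => ∑ i : Fin N,
        (∏ w : InfinitePlace K',
          β' i w (x₂ w + j • (Real.log (w (α' : K')), (0 : ℝ)))) *
        ∏ v ∈ P, A i v (X v + j • (((e v : ℕ) : ℤ), (0 : ℤ))))
        (∑ j ∈ J₁, ∑ i : Fin N,
        (∏ w : InfinitePlace K',
          β' i w (x₂ w + j • (Real.log (w (α' : K')), (0 : ℝ)))) *
        ∏ v ∈ P, A i v (X v + j • (((e v : ℕ) : ℤ), (0 : ℤ)))) :=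
      hasSum_sum_of_ne_finset_zero
        (fun j hj => Finset.sum_eq_zero fun i _ => by rw [hvan j hj i, mul_zero])
    have h3 := h2.unique h1
    rw [Finset.sum_product, ← h3]
    refine Finset.sum_congr rfl fun j _ => Finset.sum_congr rfl fun i _ => ?_
    exact mul_comm _ _
  -- Step D: the infinite places
  have hD : ∀ X₂ : InfinitePlace K → ℝ × ℝ,
      ∑ k ∈ J₁ ×ˢ (Finset.univ : Finset (Fin N)),
        (∏ v ∈ P, A k.2 v (X v + k.1 • (((e v : ℕ) : ℤ), (0 : ℤ)))) *
        ∏ v ∈ (Finset.univ : Finset (InfinitePlace K)),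
          β k.2 v (X₂ v + k.1 • (Real.log (v (α : K)), (0 : ℝ))) = 0 := by
    refine gen488 (κ := ℤ × Fin N)
      (fun g => ∑ k ∈ J₁ ×ˢ (Finset.univ : Finset (Fin N)), g k = 0)
      (fun w : InfinitePlace K' => w.comap (algebraMap K K')) Finset.univ Finset.univ
      (fun k w y => β' k.2 w (y + k.1 • (Real.log (w (α' : K')), (0 : ℝ))))
      (fun k v Y => β k.2 v (Y + k.1 • (Real.log (v (α : K)), (0 : ℝ))))
      (fun _ _ => Finset.mem_univ _) ?_
      (fun k => ∏ v ∈ P, A k.2 v (X v + k.1 • (((e v : ℕ) : ℤ), (0 : ℤ)))) hC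
    intro v _ d hd Y
    obtain ⟨wen, hen, hfibv⟩ := exists_enum488 ℓ hcyc hK v
    have hLv := hL v wen hen
    have hd' : ∀ x : InfinitePlace K' → ℝ × ℝ,
        ∑ k ∈ J₁ ×ˢ (Finset.univ : Finset (Fin N)), (d k * cμ ^ (ℓ - 1)) *
          ∏ w ∈ Finset.univ.filter
              (fun w : InfinitePlace K' => w.comap (algebraMap K K') = v),
            β' k.2 w (x w + k.1 • (Real.log (w (α' : K')), (0 : ℝ))) = 0 := by
      intro x
      have h1 : ∑ k ∈ J₁ ×ˢ (Finset.univ : Finset (Fin N)), d k *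
          ∏ w ∈ Finset.univ.filter
              (fun w : InfinitePlace K' => w.comap (algebraMap K K') = v),
            β' k.2 w (x w + k.1 • (Real.log (w (α' : K')), (0 : ℝ))) = 0 := hd x
      calc _ = cμ ^ (ℓ - 1) * ∑ k ∈ J₁ ×ˢ (Finset.univ : Finset (Fin N)), d k *
              ∏ w ∈ Finset.univ.filter
                  (fun w : InfinitePlace K' => w.comap (algebraMap K K') = v),
                β' k.2 w (x w + k.1 • (Real.log (w (α' : K')), (0 : ℝ))) := by
            rw [Finset.mul_sum]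
            exact Finset.sum_congr rfl fun k _ => by ring
        _ = 0 := by rw [h1, mul_zero]
    have key := ilp488 (J₁ ×ˢ (Finset.univ : Finset (Fin N))) _ ℓ hℓpos wen hen.2 hfibv
      (fun k w y => β' k.2 w (y + k.1 • (Real.log (w (α' : K')), (0 : ℝ))))
      (fun k w => (shift_reg488 _ (hβ' k.2 w) _).1)
      (fun k w => (shift_reg488 _ (hβ' k.2 w) _).2)
      (fun k => d k * cμ ^ (ℓ - 1)) hd' Y
    show ∑ k ∈ J₁ ×ˢ (Finset.univ : Finset (Fin N)),
      d k * β k.2 v (Y + k.1 • (Real.log (v (α : K)), (0 : ℝ))) = 0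
    rw [← key]
    refine Finset.sum_congr rfl fun k _ => ?_
    rw [hβ k.2 v wen hen]
    show d k * (cμ ^ (ℓ - 1) * B981.convR981 (fun j => β' k.2 (wen j)) (ℓ - 1)
        (Y + k.1 • (Real.log (v (α : K)), (0 : ℝ))))
      = d k * cμ ^ (ℓ - 1) * B981.convR981
        (fun j y => β' k.2 (wen j) (y + k.1 • (Real.log ((wen j) (α' : K')), (0 : ℝ))))
        (ℓ - 1) Y
    rw [convR_shift488 (fun j => β' k.2 (wen j))
      (fun j => k.1 • (Real.log ((wen j) (α' : K')), (0 : ℝ))) (ℓ - 1) Y]
    have hsum : ∑ m ∈ Finset.range (ℓ - 1 + 1),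
        k.1 • (Real.log ((wen m) (α' : K')), (0 : ℝ))
        = k.1 • (Real.log (v (α : K)), (0 : ℝ)) := by
      rw [show ℓ - 1 + 1 = ℓ by omega, ← Finset.smul_sum, hLv]
      congr 1
      refine Prod.ext ?_ ?_
      · simp [Prod.fst_sum]
      · simp [Prod.snd_sum]
    rw [hsum, mul_assoc]
  -- Step E: the conclusion
  have hE := hD (fun v => Δ.2 v)
  have e1 : (fun j : ℤ => ∑ i : Fin N,
        T3.M.pureCoordM K P (A i) (β i) (Δ + j • T3.M.coordTorM K P e α))
      = fun j : ℤ => ∑ i : Fin N,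
          (∏ v ∈ P, A i v (X v + j • (((e v : ℕ) : ℤ), (0 : ℤ)))) *
          ∏ v ∈ (Finset.univ : Finset (InfinitePlace K)),
            β i v (Δ.2 v + j • (Real.log (v (α : K)), (0 : ℝ))) := by
    funext j
    refine Finset.sum_congr rfl fun i _ => ?_
    rw [pureCoordM_shift488]
    congr 1
    rw [← Finset.prod_coe_sort P]
    refine Finset.prod_congr rfl fun v _ => ?_
    show A i v.1 (Δ.1 v + _) = A i v.1 ((if h : v.1 ∈ P then Δ.1 ⟨v.1, h⟩ else 0) + _)
    rw [dif_pos v.2]
  rw [e1]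
  have h2 : HasSum (fun j : ℤ => ∑ i : Fin N,
      (∏ v ∈ P, A i v (X v + j • (((e v : ℕ) : ℤ), (0 : ℤ)))) *
      ∏ v ∈ (Finset.univ : Finset (InfinitePlace K)),
        β i v (Δ.2 v + j • (Real.log (v (α : K)), (0 : ℝ))))
      (∑ j ∈ J₁, ∑ i : Fin N,
      (∏ v ∈ P, A i v (X v + j • (((e v : ℕ) : ℤ), (0 : ℤ)))) *
      ∏ v ∈ (Finset.univ : Finset (InfinitePlace K)),
        β i v (Δ.2 v + j • (Real.log (v (α : K)), (0 : ℝ)))) :=
    hasSum_sum_of_ne_finset_zero
      (fun j hj => Finset.sum_eq_zero fun i _ => by rw [hvan j hj i, zero_mul])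
  have h3 : ∑ j ∈ J₁, ∑ i : Fin N,
      (∏ v ∈ P, A i v (X v + j • (((e v : ℕ) : ℤ), (0 : ℤ)))) *
      ∏ v ∈ (Finset.univ : Finset (InfinitePlace K)),
        β i v (Δ.2 v + j • (Real.log (v (α : K)), (0 : ℝ))) = 0 := by
    rw [← hE, Finset.sum_product]
  rw [h3] at h2
  exact h2

end Fermat.Agent.LT.T7.H488.PT

end
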