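import Mathlib
import Fermat.Agent.LT.T7.DQ773.DatQSpec
import Fermat.Agent.LT.T7.H488.PushTel

/-!
# Row LT, tower T7, leaf DQ.5 `DQ773.PushTelQC773` (cut of helper773 of `BQ87.DatQC87`, over `ℚ`)
# PROVED (helper488, OFF-MAIN, never land)

    pushTelQC773_488 F : DQ773.PushTelQC773 F          (VERBATIM, unconditional)

Proof.  The finite places: `PT.gen488` + `PT.flp488` (as for `B981.PushTelC981`, with `K = ℚ`,
`K' = F`).  At infinity there is ONE place upstairs and ONE downstairs: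
`β v (X + j (log v α, 0)) = c β' w (X/2 + j (log w α', 0))`, no integral.
-/

set_option autoImplicit false
set_option linter.unusedSectionVars false
set_option linter.unusedVariables false

open IsDedekindDomain NumberField MeasureTheory

noncomputable section

namespace Fermat.Agent.LT.T7.H488.PT

open Fermat.Agent.LT.T7 Fermat.Agent.LT

theorem halfQ_apply488 (c : ℂ) (β' : ℝ × ℝ → ℂ) (p : ℝ × ℝ) :
    CQ801.halfQ801 c β' p = c * β' ((2 : ℝ)⁻¹ • p) := rfl

/-- **LEAF DQ.5 = PUSH-TEL over `ℚ`, PROVED.** -/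
theorem pushTelQC773_488 (F : Type) [Field F] [NumberField F] : DQ773.PushTelQC773 F := by
  classical
  intro hF P' P e' e α' α hP hne hepos he hL c N A' β' A β hA' hβ' hA hβ hup Δ
  -- the places under `P'`
  have hbelow : ∀ w ∈ P', belowF488 (K := ℚ) w ∈ P := fun w hw =>
    (hP _).2 ⟨w, hw, belowF_spec488 w⟩
  have hfib : ∀ v : HeightOneSpectrum (𝓞 ℚ),
      P'.filter (fun w => belowF488 (K := ℚ) w = v) = B981.fib981 (K := ℚ) P' v := by
    intro v
    ext w
    rw [Finset.mem_filter, mem_fib488, belowF_eq_iff488]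
  -- the finite places
  have hB : ∀ (x₂ : InfinitePlace F → ℝ × ℝ) (X : HeightOneSpectrum (𝓞 ℚ) → ℤ × ℤ),
      HasSum (fun j : ℤ => ∑ i : Fin N,
        (∏ w : InfinitePlace F,
          β' i w (x₂ w + j • (Real.log (w (α' : F)), (0 : ℝ)))) *
        ∏ v ∈ P, A i v (X v + j • (((e v : ℕ) : ℤ), (0 : ℤ)))) 0 := by
    intro x₂
    refine gen488 (κ := ℤ × Fin N) (fun g => HasSum (fun j : ℤ => ∑ i : Fin N, g (j, i)) 0)
      (belowF488 (K := ℚ)) P' P
      (fun k w y => A' k.2 w (y + k.1 • (((e' w : ℕ) : ℤ), (0 : ℤ))))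
      (fun k v Y => A k.2 v (Y + k.1 • (((e v : ℕ) : ℤ), (0 : ℤ)))) hbelow ?_
      (fun k => ∏ w : InfinitePlace F,
          β' k.2 w (x₂ w + k.1 • (Real.log (w (α' : F)), (0 : ℝ)))) ?_
    · intro v hv d hd Y
      have hd' : ∀ x : HeightOneSpectrum (𝓞 F) → ℤ × ℤ,
          HasSum (fun j : ℤ => ∑ i : Fin N, d (j, i) *
            ∏ w ∈ P'.filter (fun w => belowF488 (K := ℚ) w = v),
              A' i w (x w + j • (((e' w : ℕ) : ℤ), (0 : ℤ)))) 0 := hd
      have hev : ((e v : ℕ) : ℤ) = ∑ w ∈ P'.filter (fun w => belowF488 (K := ℚ) w = v),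
          (B981.resDeg981 v w : ℤ) * (e' w : ℤ) := by
        rw [hfib v, he v hv, Nat.cast_sum]
        exact Finset.sum_congr rfl fun w _ => Nat.cast_mul _ _
      have h1 := flp488 (P'.filter (fun w => belowF488 (K := ℚ) w = v)) (B981.resDeg981 v) e'
        (e v) hev (hepos v hv) A' (fun i w => (hA' i w).1) d hd' Y
      have e1 : (fun j : ℤ => ∑ i : Fin N, d (j, i) *
          push488 (P'.filter (fun w => belowF488 (K := ℚ) w = v)) (B981.resDeg981 v) (A' i)
            (Y + j • (((e v : ℕ) : ℤ), (0 : ℤ))))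
          = fun j : ℤ => ∑ i : Fin N, d (j, i) * A i v (Y + j • (((e v : ℕ) : ℤ), (0 : ℤ))) := by
        funext j
        refine Finset.sum_congr rfl fun i _ => ?_
        rw [hA i v hv, pushFin_eq488, hfib v]
      rw [e1] at h1
      exact h1
    · intro x
      have h1 := hup (fun w : P' => x w.1, x₂)
      have e1 : (fun j : ℤ => ∑ i : Fin N, T3.M.pureCoordM F P' (A' i) (β' i)
            ((fun w : P' => x w.1, x₂) + j • T3.M.coordTorM F P' e' α'))
          = fun j : ℤ => ∑ i : Fin N,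
            (∏ w : InfinitePlace F,
              β' i w (x₂ w + j • (Real.log (w (α' : F)), (0 : ℝ)))) *
            ∏ w ∈ P', A' i w (x w + j • (((e' w : ℕ) : ℤ), (0 : ℤ))) := by
        funext j
        refine Finset.sum_congr rfl fun i _ => ?_
        rw [pureCoordM_shift488, mul_comm]
        congr 1
        exact Finset.prod_coe_sort P' (fun w => A' i w (x w + j • (((e' w : ℕ) : ℤ), (0 : ℤ))))
      rw [e1] at h1
      exact h1
  -- the infinite places
  obtain ⟨hsubF, ⟨w₀⟩⟩ := Nat.card_eq_one_iff_unique.1 hF.1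
  obtain ⟨v₀⟩ : Nonempty (InfinitePlace ℚ) := inferInstance
  let X : HeightOneSpectrum (𝓞 ℚ) → ℤ × ℤ := fun v => if h : v ∈ P then Δ.1 ⟨v, h⟩ else 0
  have h1 := (hB (fun _ => (2 : ℝ)⁻¹ • Δ.2 v₀) X).mul_left c
  rw [mul_zero] at h1
  have e1 : (fun j : ℤ => ∑ i : Fin N,
        T3.M.pureCoordM ℚ P (A i) (β i) (Δ + j • T3.M.coordTorM ℚ P e α))
      = fun j : ℤ => c * ∑ i : Fin N,
        (∏ w : InfinitePlace F,
          β' i w ((2 : ℝ)⁻¹ • Δ.2 v₀ + j • (Real.log (w (α' : F)), (0 : ℝ)))) *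
        ∏ v ∈ P, A i v (X v + j • (((e v : ℕ) : ℤ), (0 : ℤ))) := by
    funext j
    rw [Finset.mul_sum]
    refine Finset.sum_congr rfl fun i _ => ?_
    rw [pureCoordM_shift488, Fintype.prod_subsingleton _ v₀, Fintype.prod_subsingleton _ w₀,
      hβ i v₀ w₀, halfQ_apply488, hL v₀ w₀]
    have e2 : (2 : ℝ)⁻¹ • (Δ.2 v₀ + j • (2 * Real.log (w₀ (α' : F)), (0 : ℝ)))
        = (2 : ℝ)⁻¹ • Δ.2 v₀ + j • (Real.log (w₀ (α' : F)), (0 : ℝ)) := by
      rw [smul_add, smul_comm]
      congr 2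
      refine Prod.ext ?_ ?_
      · simp
      · simp
    rw [e2]
    have e3 : ∏ v : P, A i v.1 (Δ.1 v + j • (((e v.1 : ℕ) : ℤ), (0 : ℤ)))
        = ∏ v ∈ P, A i v (X v + j • (((e v : ℕ) : ℤ), (0 : ℤ))) := by
      rw [← Finset.prod_coe_sort P]
      refine Finset.prod_congr rfl fun v _ => ?_
      show A i v.1 (Δ.1 v + _) = A i v.1 ((if h : v.1 ∈ P then Δ.1 ⟨v.1, h⟩ else 0) + _)
      rw [dif_pos v.2]
    rw [e3]
    ring
  rw [e1]
  exact h1

end Fermat.Agent.LT.T7.H488.PT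

end
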